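import Fermat.Agent.S56.P3.H306.Final
import Fermat.Agent.S56.P3.H769.Span
import Fermat.Agent.S56.P3.H635.REG
import Fermat.Agent.S56.P3.H934.IRR
import Fermat.Agent.S56.P3.H254.Arith

/-!
# S56 / P3 : FINAL (helper306)

`twElement : Fermat.Agent.S56.TWElementStatement` — the Taylor–Wiles element (DDT Lemma 2.48 +
Theorem 2.49, group theory part), assembled from the leaves
SPAN (helper769), REG (helper635), IRR (helper934), CYC + DETORD (helper254),
H1 core (helper726) + H1ADAPT, SEL, CYCEXP, glue (helper306).
-/

set_option autoImplicit false

namespace Fermat.Agent.S56.P3.H306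

open Fermat.Agent.S56.P3

/-- **P3** : the Taylor–Wiles element. -/
theorem twElement : Fermat.Agent.S56.TWElementStatement :=
  twElement_of_leaves H769.spanDelta H934.ad0Irreducible H635.reg H254.cycloQuotient
    H254.detOrder

end Fermat.Agent.S56.P3.H306
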