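import Fermat.Agent.S56.P3.Spec

/-!
# S56 / P3 : basic lemmas on the twisted adjoint action and twisted cocycles (helper306)
-/

set_option autoImplicit false

open Polynomial

namespace Fermat.Agent.S56.P3.H306

open Fermat.Agent.S56.P3

variable {k : Type} [Field k] {V : Type} [AddCommGroup V] [Module k V] [Module.Finite k V]
variable {Γ : Type} [Group Γ]

theorem rho_mul_inv (ρ : Γ →* Module.End k V) (g : Γ) : ρ g * ρ g⁻¹ = 1 := by
  rw [← map_mul, mul_inv_cancel, map_one]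

theorem rho_inv_mul (ρ : Γ →* Module.End k V) (g : Γ) : ρ g⁻¹ * ρ g = 1 := by
  rw [← map_mul, inv_mul_cancel, map_one]

theorem det_rho_mul_inv (ρ : Γ →* Module.End k V) (g : Γ) :
    LinearMap.det (ρ g) * LinearMap.det (ρ g⁻¹) = 1 := by
  rw [← map_mul, rho_mul_inv, map_one]

theorem det_rho_ne_zero (ρ : Γ →* Module.End k V) (g : Γ) : LinearMap.det (ρ g) ≠ 0 := by
  intro h
  have := det_rho_mul_inv ρ g
  rw [h, zero_mul] at this
  exact zero_ne_one this

theorem rho_eq_one_inv {ρ : Γ →* Module.End k V} {g : Γ} (h : ρ g = 1) : ρ g⁻¹ = 1 := by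
  have := rho_inv_mul ρ g
  rwa [h, mul_one] at this

/-- conjugation as a linear map. -/
noncomputable def conjL (ρ : Γ →* Module.End k V) (g : Γ) :
    Module.End k V →ₗ[k] Module.End k V :=
  (LinearMap.mulLeft k (ρ g)).comp (LinearMap.mulRight k (ρ g⁻¹))

@[simp] theorem conjL_apply (ρ : Γ →* Module.End k V) (g : Γ) (A : Module.End k V) :
    conjL ρ g A = ρ g * A * ρ g⁻¹ := by
  simp [conjL, mul_assoc]

theorem trace_conj (ρ : Γ →* Module.End k V) (g : Γ) (A : Module.End k V) :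
    LinearMap.trace k V (ρ g * A * ρ g⁻¹) = LinearMap.trace k V A := by
  rw [LinearMap.trace_mul_comm, ← mul_assoc, rho_inv_mul, one_mul]

theorem twEnd_one (ρ : Γ →* Module.End k V) (A : Module.End k V) : twEnd ρ 1 A = A := by
  simp [twEnd]

theorem twEnd_of_rho_eq_one {ρ : Γ →* Module.End k V} {g : Γ} (h : ρ g = 1)
    (A : Module.End k V) : twEnd ρ g A = A := by
  simp [twEnd, h, rho_eq_one_inv h]

theorem twEnd_congr {ρ : Γ →* Module.End k V} {g h : Γ} (e : ρ g = ρ h)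
    (A : Module.End k V) : twEnd ρ g A = twEnd ρ h A := by
  have e' : ρ g⁻¹ = ρ h⁻¹ := by
    have h1 : ρ g⁻¹ * ρ g = 1 := rho_inv_mul ρ g
    calc ρ g⁻¹ = ρ g⁻¹ * (ρ h * ρ h⁻¹) := by rw [rho_mul_inv, mul_one]
      _ = (ρ g⁻¹ * ρ g) * ρ h⁻¹ := by rw [e, mul_assoc]
      _ = ρ h⁻¹ := by rw [h1, one_mul]
  simp only [twEnd, e, e']

theorem twEnd_add (ρ : Γ →* Module.End k V) (g : Γ) (A B : Module.End k V) :
    twEnd ρ g (A + B) = twEnd ρ g A + twEnd ρ g B := by
  simp only [twEnd, mul_add, add_mul, smul_add]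

theorem twEnd_neg (ρ : Γ →* Module.End k V) (g : Γ) (A : Module.End k V) :
    twEnd ρ g (-A) = - twEnd ρ g A := by
  simp only [twEnd, mul_neg, neg_mul, smul_neg]

theorem twEnd_sub (ρ : Γ →* Module.End k V) (g : Γ) (A B : Module.End k V) :
    twEnd ρ g (A - B) = twEnd ρ g A - twEnd ρ g B := by
  simp only [twEnd, mul_sub, sub_mul, smul_sub]

section Cocycle

variable {ρ : Γ →* Module.End k V} {ψ : Γ → Module.End k V}

theorem cocycle_one (hψ : IsTwCocycle ρ ψ) : ψ 1 = 0 := by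
  have h := hψ.map_mul 1 1
  rw [mul_one, twEnd_one] at h
  exact left_eq_add.mp h

theorem cocycle_inv (hψ : IsTwCocycle ρ ψ) (g : Γ) : twEnd ρ g (ψ g⁻¹) = - ψ g := by
  have h := hψ.map_mul g g⁻¹
  rw [mul_inv_cancel, cocycle_one hψ] at h
  exact (neg_eq_of_add_eq_zero_right h.symm).symm ▸ rfl

/-- on `ker ρ`, a cocycle is equivariant for conjugation. -/
theorem cocycle_conj (hψ : IsTwCocycle ρ ψ) (g ν : Γ) (hν : ρ ν = 1) :
    ψ (g * ν * g⁻¹) = twEnd ρ g (ψ ν) := by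
  have e : ρ (g * ν) = ρ g := by rw [map_mul, hν, mul_one]
  rw [hψ.map_mul (g * ν) g⁻¹, hψ.map_mul g ν, twEnd_congr e, cocycle_inv hψ]
  abel

theorem cocycle_mul_of_rho_eq_one (hψ : IsTwCocycle ρ ψ) (ν g : Γ) (hν : ρ ν = 1) :
    ψ (ν * g) = ψ ν + ψ g := by
  rw [hψ.map_mul, twEnd_of_rho_eq_one hν]

end Cocycle

end Fermat.Agent.S56.P3.H306
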