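import Fermat.Agent.S56.P3.H306.Basic
import Fermat.Agent.S56.H726.Inner

/-!
# S56 / P3 : piece H1ADAPT (helper306)

`h1_of_span : SpanDeltaStatement → H1VanishStatement`, from helper726's matrix theorem
`Fermat.Agent.S56.H726.h1_vanishing`.
-/

set_option autoImplicit false
set_option linter.unusedSectionVars false

open Polynomial

namespace Fermat.Agent.S56.P3.H306

open Fermat.Agent.S56.P3

/-- trace and determinant of a `2 × 2` matrix with split characteristic polynomial. -/
theorem trace_det_of_charpoly {k : Type} [Field k] (M : Matrix (Fin 2) (Fin 2) k) {α β : k}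
    (h : M.charpoly = (X - C α) * (X - C β)) : M.trace = α + β ∧ M.det = α * β := by
  rw [Matrix.charpoly_fin_two] at h
  have h1 := congrArg (fun q => q.coeff 1) h
  have h0 := congrArg (fun q => q.coeff 0) h
  have e : (X - C α) * (X - C β) = X ^ 2 - C (α + β) * X + C (α * β) := by
    simp only [map_add, map_mul]
    ring
  simp only [e] at h1 h0
  simp [coeff_X, coeff_C] at h1 h0
  exact ⟨by linear_combination (-1 : k) * h1, by linear_combination h0⟩

/-- **(H1ADAPT)** -/
theorem h1_of_span (hs : SpanDeltaStatement) : H1VanishStatement := by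
  intro k _ _ V _ _ _ Γ _ ρ p _ hp2 hT Δ hΔ hC hdet1 hord ψ hψ hvan
  classical
  have hp : p.Prime := Fact.out
  have : CharP k p := (CharP.charP_iff_prime_eq_zero hp).mpr hT.char_p
  set b : Module.Basis (Fin 2) k V := Module.finBasisOfFinrankEq k V hT.finrank_eq with hb
  set E : Module.End k V ≃ₐ[k] Matrix (Fin 2) (Fin 2) k := LinearMap.toMatrixAlgEquiv b with hE
  have hEdet : ∀ A : Module.End k V, (E A).det = LinearMap.det A := fun A =>
    LinearMap.det_toMatrix b A
  have hEtr : ∀ A : Module.End k V, (E A).trace = LinearMap.trace k V A := fun A =>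
    (LinearMap.trace_eq_matrix_trace k b A).symm
  have hEch : ∀ A : Module.End k V, (E A).charpoly = LinearMap.charpoly A := fun A =>
    LinearMap.charpoly_toMatrix A b
  set ρ' : Γ →* Matrix (Fin 2) (Fin 2) k := (E : Module.End k V →* _).comp ρ with hρ'
  have hρ'app : ∀ g, ρ' g = E (ρ g) := fun g => rfl
  -- hypotheses of the core theorem
  have hdet' : ∀ h ∈ Δ, (ρ' h).det = 1 := fun h hh => by rw [hρ'app, hEdet, hdet1 h hh]
  have hspan' : Submodule.span k (ρ' '' (Δ : Set Γ)) = ⊤ := by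
    have h0 := hs k V Γ ρ p hp2 hT Δ hC
    have h1 : ρ' '' (Δ : Set Γ) =
        (E.toLinearEquiv : Module.End k V →ₗ[k] Matrix (Fin 2) (Fin 2) k) ''
          (Set.range fun δ : Δ => ρ (δ : Γ)) := by
      ext x
      constructor
      · rintro ⟨g, hg, rfl⟩
        exact ⟨ρ g, ⟨⟨g, hg⟩, rfl⟩, rfl⟩
      · rintro ⟨_, ⟨⟨g, hg⟩, rfl⟩, rfl⟩
        exact ⟨g, hg, rfl⟩
    rw [h1, Submodule.span_image, h0, Submodule.map_top, LinearMap.range_eq_top]
    exact E.toLinearEquiv.surjective
  have hsplit' : ∀ h ∈ Δ, ∃ α β : k, (ρ' h).trace = α + β ∧ α * β = 1 := by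
    intro h hh
    obtain ⟨α, β, hch⟩ := hT.split h
    have := trace_det_of_charpoly (E (ρ h)) (by rw [hEch]; exact hch)
    exact ⟨α, β, this.1, by rw [← this.2, hEdet, hdet1 h hh]⟩
  have h5 : p = 5 → ∃ g : Γ, (ρ' g).det ≠ 1 ∧ (ρ' g).det ≠ -1 := by
    intro hp5
    obtain ⟨γ, hγ⟩ := hord
    refine ⟨γ, ?_, ?_⟩
    · intro h
      rw [hρ'app, hEdet] at h
      rw [h, orderOf_one, hp5] at hγ
      omega
    · intro h
      rw [hρ'app, hEdet] at h
      have h2 : (LinearMap.det (ρ γ)) ^ 2 = 1 := by rw [h]; norm_num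
      have := orderOf_dvd_of_pow_eq_one h2
      rw [hγ, hp5] at this
      omega
  have hψtr : ∀ g, (E (ψ g)).trace = 0 := fun g => by rw [hEtr, hψ.trace_zero]
  have hψmul : ∀ g h, E (ψ (g * h)) =
      E (ψ g) + (ρ' g).det • (ρ' g * E (ψ h) * ρ' g⁻¹) := by
    intro g h
    rw [hψ.map_mul, map_add, twEnd, map_smul, map_mul, map_mul, hρ'app, hρ'app, hEdet]
  have hN : ∀ h ∈ Δ, ρ' h = 1 → E (ψ h) = 0 := by
    intro h hh h1
    have : ρ h = 1 := E.injective (by rw [map_one]; exact h1)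
    rw [hvan h hh this, map_zero]
  obtain ⟨m, hm, hcob⟩ := Fermat.Agent.S56.H726.h1_vanishing p hp2 ρ' Δ hΔ hdet' hspan' hsplit'
    h5 (fun g => E (ψ g)) hψtr hψmul hN
  refine ⟨E.symm m, ?_, fun g => ?_⟩
  · rw [← hEtr, AlgEquiv.apply_symm_apply, hm]
  · apply E.injective
    rw [hcob g, map_sub, twEnd, map_smul, map_mul, map_mul, AlgEquiv.apply_symm_apply,
      hρ'app, hρ'app, hEdet]

end Fermat.Agent.S56.P3.H306
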