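import Fermat.Agent.S56.P3.H306.Basic

/-!
# S56 / P3 : piece SEL (helper306)

`sel : H1VanishStatement → Ad0IrreducibleStatement → ExistsRegularStatement →
  AbstractTWElementStatement`
-/

set_option autoImplicit false
set_option linter.unusedSectionVars false

open Polynomial

namespace Fermat.Agent.S56.P3.H306

open Fermat.Agent.S56.P3

variable {k : Type} [Field k] {V : Type} [AddCommGroup V] [Module k V] [Module.Finite k V]
variable {Γ : Type} [Group Γ]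

theorem two_ne_zero_of_char {p : ℕ} (hp : p.Prime) (hp2 : p ≠ 2) (hp0 : (p : k) = 0) :
    (2 : k) ≠ 0 := by
  intro h2
  have h2' : ((2 : ℕ) : k) = 0 := by exact_mod_cast h2
  have d1 : ringChar k ∣ p := ringChar.dvd hp0
  have d2 : ringChar k ∣ 2 := ringChar.dvd h2'
  have hr : (ringChar k).Prime := by
    rcases CharP.char_is_prime_or_zero k (ringChar k) with h | h
    · exact h
    · rw [h, zero_dvd_iff] at d1
      exact absurd d1 hp.ne_zero
  have e1 := (Nat.prime_dvd_prime_iff_eq hr hp).mp d1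
  have e2 := (Nat.prime_dvd_prime_iff_eq hr Nat.prime_two).mp d2
  exact hp2 (e1.symm.trans e2)

theorem twEnd_of_det_one {ρ : Γ →* Module.End k V} {g : Γ} (h : LinearMap.det (ρ g) = 1)
    (A : Module.End k V) : twEnd ρ g A = ρ g * A * ρ g⁻¹ := by
  rw [twEnd, h, one_smul]

/-- a regular element is not a scalar. -/
theorem not_scalar_of_isRegular {ρ : Γ →* Module.End k V} {σ : Γ} (h : IsRegular ρ σ) (c : k) :
    ρ σ ≠ c • (1 : Module.End k V) := by
  obtain ⟨α, β, hαβ, hch⟩ := h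
  intro hc
  have key : ∀ γ : k, (LinearMap.charpoly (ρ σ)).IsRoot γ → c = γ := by
    intro γ hγ
    have hE : Module.End.HasEigenvalue (ρ σ) γ :=
      (Module.End.hasEigenvalue_iff_isRoot_charpoly (ρ σ) γ).mpr hγ
    obtain ⟨v, hv⟩ := hE.exists_hasEigenvector
    have h1 : ρ σ v = γ • v := hv.apply_eq_smul
    rw [hc] at h1
    have h2 : (c - γ) • v = 0 := by
      rw [sub_smul]
      simpa [sub_eq_zero] using h1
    rcases smul_eq_zero.mp h2 with h3 | h3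
    · exact sub_eq_zero.mp h3
    · exact absurd h3 hv.2
  have hα : c = α := key α (by rw [hch]; simp [IsRoot])
  have hβ : c = β := key β (by rw [hch]; simp [IsRoot])
  exact hαβ (hα.symm.trans hβ)

/-- for a regular `σ₀`, `(Ad ρ σ₀ - 1) ad⁰` is a proper subspace of `ad⁰`. -/
theorem exists_not_mem_range {p : ℕ} (hp : p.Prime) (hp2 : p ≠ 2) (hp0 : (p : k) = 0)
    (hfin : Module.finrank k V = 2) {ρ : Γ →* Module.End k V} {σ₀ : Γ}
    (hreg : IsRegular ρ σ₀) :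
    ∃ A : Module.End k V, LinearMap.trace k V A = 0 ∧
      ∀ m : Module.End k V, LinearMap.trace k V m = 0 → A ≠ ρ σ₀ * m * ρ σ₀⁻¹ - m := by
  classical
  have h2 : (2 : k) ≠ 0 := two_ne_zero_of_char hp hp2 hp0
  set T : Module.End k V →ₗ[k] Module.End k V := conjL ρ σ₀ - LinearMap.id with hT
  have hTapp : ∀ m, T m = ρ σ₀ * m * ρ σ₀⁻¹ - m := by
    intro m
    simp [hT]
  set ad0 : Submodule k (Module.End k V) := LinearMap.ker (LinearMap.trace k V) with had0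
  have hTmem : ∀ m ∈ ad0, T m ∈ ad0 := by
    intro m hm
    rw [had0, LinearMap.mem_ker] at hm ⊢
    rw [hTapp, map_sub, trace_conj, hm, sub_zero]
  set T' : ad0 →ₗ[k] ad0 := T.restrict hTmem with hT'
  by_contra hcon
  push_neg at hcon
  have hsurj : Function.Surjective T' := by
    rintro ⟨A, hA⟩
    obtain ⟨m, hm, hAm⟩ := hcon A (LinearMap.mem_ker.mp hA)
    refine ⟨⟨m, LinearMap.mem_ker.mpr hm⟩, ?_⟩
    apply Subtype.ext
    rw [hT', LinearMap.restrict_coe_apply, hTapp]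
    exact hAm.symm
  have hinj : Function.Injective T' := LinearMap.injective_iff_surjective.mpr hsurj
  -- the trace-zero part of `ρ σ₀`
  set c : k := LinearMap.trace k V (ρ σ₀) / 2 with hc
  set m₀ : Module.End k V := ρ σ₀ - c • 1 with hm₀
  have hm₀tr : LinearMap.trace k V m₀ = 0 := by
    rw [hm₀, map_sub, map_smul, LinearMap.trace_one, hfin, hc, smul_eq_mul]
    field_simp
    push_cast
    ring
  have hm₀T : T m₀ = 0 := by
    rw [hTapp, hm₀]
    have e : ρ σ₀ * (ρ σ₀ - c • 1) * ρ σ₀⁻¹ = (ρ σ₀ - c • 1) * (ρ σ₀ * ρ σ₀⁻¹) := by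
      rw [← mul_assoc]
      congr 1
      rw [mul_sub, sub_mul, mul_smul_comm, smul_mul_assoc, mul_one, one_mul]
    rw [e, rho_mul_inv, mul_one, sub_self]
  have hm₀ne : m₀ ≠ 0 := by
    intro h
    exact not_scalar_of_isRegular hreg c (sub_eq_zero.mp h)
  have hker : T' ⟨m₀, LinearMap.mem_ker.mpr hm₀tr⟩ = T' 0 := by
    apply Subtype.ext
    rw [hT', LinearMap.restrict_coe_apply, hm₀T, map_zero]
    rfl
  have := hinj hker
  exact hm₀ne (congrArg Subtype.val this)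

/-- **(SEL)** selection of the Taylor–Wiles element. -/
theorem sel (h1 : H1VanishStatement) (hirr : Ad0IrreducibleStatement)
    (hreg : ExistsRegularStatement) : AbstractTWElementStatement := by
  intro k _ _ V _ _ _ Γ _ ρ p _ hp2 hT Δ hΔ hC hdet1 hord ψ hψ hnc
  have hp : p.Prime := Fact.out
  -- Step 1 : `ψ` does not vanish on `Δ ∩ ker ρ`
  have hex : ∃ ν ∈ Δ, ρ ν = 1 ∧ ψ ν ≠ 0 := by
    by_contra hcon
    push_neg at hcon
    exact hnc (h1 k V Γ ρ p hp2 hT Δ hC hdet1 hord ψ hψ hcon)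
  obtain ⟨ν₀, hν₀Δ, hν₀ρ, hν₀ψ⟩ := hex
  -- Step 2 : `ψ(Δ ∩ ker ρ)` spans `ad⁰`
  set Nset : Set Γ := {ν | ν ∈ Δ ∧ ρ ν = 1} with hNset
  set W : Submodule k (Module.End k V) := Submodule.span k (ψ '' Nset) with hW
  have hWtr : ∀ A ∈ W, LinearMap.trace k V A = 0 := by
    intro A hA
    have hle : W ≤ LinearMap.ker (LinearMap.trace k V) := by
      rw [hW, Submodule.span_le]
      rintro _ ⟨ν, -, rfl⟩
      exact LinearMap.mem_ker.mpr (hψ.trace_zero ν)
    exact LinearMap.mem_ker.mp (hle hA)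
  have hWconj : ∀ g : Γ, ∀ A ∈ W, ρ g * A * ρ g⁻¹ ∈ W := by
    intro g A hA
    have hle : W ≤ Submodule.comap (conjL ρ g) W := by
      rw [hW, Submodule.span_le]
      rintro _ ⟨ν, ⟨hνΔ, hνρ⟩, rfl⟩
      show conjL ρ g (ψ ν) ∈ Submodule.span k (ψ '' Nset)
      rw [conjL_apply]
      have hmem : g * ν * g⁻¹ ∈ Nset :=
        ⟨hΔ.conj_mem ν hνΔ g, by rw [map_mul, map_mul, hνρ, mul_one, rho_mul_inv]⟩
      have hconj := cocycle_conj hψ g ν hνρ
      have e : ρ g * ψ ν * ρ g⁻¹ = (LinearMap.det (ρ g))⁻¹ • ψ (g * ν * g⁻¹) := by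
        rw [hconj, twEnd, smul_smul, inv_mul_cancel₀ (det_rho_ne_zero ρ g), one_smul]
      rw [e]
      exact Submodule.smul_mem _ _ (Submodule.subset_span ⟨_, hmem, rfl⟩)
    have h := hle hA
    rwa [Submodule.mem_comap, conjL_apply] at h
  have hWne : W ≠ ⊥ := by
    intro h
    have hmem : ψ ν₀ ∈ W := Submodule.subset_span ⟨ν₀, ⟨hν₀Δ, hν₀ρ⟩, rfl⟩
    rw [h, Submodule.mem_bot] at hmem
    exact hν₀ψ hmem
  have hWtop := hirr k V Γ ρ p hp2 hT W hWtr hWconj hWne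
  -- Step 3 : a regular element of `Δ`
  obtain ⟨σ₀, hσ₀Δ, hσ₀reg⟩ := hreg k V Γ ρ p hp2 hT Δ hC
  have hσ₀det := hdet1 σ₀ hσ₀Δ
  by_cases hin : InRange ρ ψ σ₀
  swap
  · exact ⟨σ₀, hσ₀Δ, hσ₀reg, hσ₀det, hin⟩
  obtain ⟨m₁, hm₁, hm₁eq⟩ := hin
  rw [twEnd_of_det_one hσ₀det] at hm₁eq
  obtain ⟨A, hAtr, hAR⟩ := exists_not_mem_range hp hp2 hT.char_p hT.finrank_eq hσ₀reg
  -- Step 4 : some `ψ ν` is outside the range
  set R : Submodule k (Module.End k V) :=
    Submodule.map (conjL ρ σ₀ - LinearMap.id) (LinearMap.ker (LinearMap.trace k V)) with hR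
  have hRmem : ∀ x, x ∈ R ↔ ∃ m, LinearMap.trace k V m = 0 ∧ x = ρ σ₀ * m * ρ σ₀⁻¹ - m := by
    intro x
    rw [hR, Submodule.mem_map]
    constructor
    · rintro ⟨m, hm, rfl⟩
      exact ⟨m, LinearMap.mem_ker.mp hm, by simp⟩
    · rintro ⟨m, hm, rfl⟩
      exact ⟨m, LinearMap.mem_ker.mpr hm, by simp⟩
  have hAW : A ∈ W := hWtop A hAtr
  have hex2 : ∃ ν ∈ Nset, ψ ν ∉ R := by
    by_contra hcon
    push_neg at hcon
    have hle : W ≤ R := by
      rw [hW, Submodule.span_le]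
      rintro _ ⟨ν, hν, rfl⟩
      exact hcon ν hν
    obtain ⟨m, hm, hAm⟩ := (hRmem A).mp (hle hAW)
    exact hAR m hm hAm
  obtain ⟨ν, ⟨hνΔ, hνρ⟩, hνR⟩ := hex2
  have e : ρ (ν * σ₀) = ρ σ₀ := by rw [map_mul, hνρ, one_mul]
  have hdet' := hdet1 _ (Δ.mul_mem hνΔ hσ₀Δ)
  refine ⟨ν * σ₀, Δ.mul_mem hνΔ hσ₀Δ, ?_, hdet', ?_⟩
  · obtain ⟨α, β, hαβ, hch⟩ := hσ₀reg
    exact ⟨α, β, hαβ, by rw [e]; exact hch⟩
  · rintro ⟨m, hm, hmeq⟩
    rw [cocycle_mul_of_rho_eq_one hψ ν σ₀ hνρ, twEnd_congr e, twEnd_of_det_one hσ₀det] at hmeq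
    apply hνR
    rw [hRmem]
    refine ⟨m - m₁, by rw [map_sub, hm, hm₁, sub_zero], ?_⟩
    have h3 : ψ ν = (ρ σ₀ * m * ρ σ₀⁻¹ - m) - ψ σ₀ := eq_sub_of_add_eq hmeq
    rw [h3, hm₁eq, mul_sub, sub_mul]
    abel

end Fermat.Agent.S56.P3.H306
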