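import Fermat.Agent.S56.P3.Glue
import Fermat.Agent.S56.P3.H306.Sel
import Fermat.Agent.S56.P3.H306.H1Adapt
import Fermat.Agent.S56.H14.CycExp

/-!
# S56 / P3 : assembly from the five remaining leaves (helper306)

`twElement_of_leaves : SPAN → IRR → (SPAN → REG) → CYC → DETORD →
  Fermat.Agent.S56.TWElementStatement`
-/

set_option autoImplicit false

namespace Fermat.Agent.S56.P3.H306

open Fermat.Agent.S56.P3

/-- (CYCEXP) from helper14's `exists_isCycExp`. -/
theorem cycExpExists : CycExpExistsStatement := fun p hp σ =>
  Fermat.Agent.S56.H14.exists_isCycExp p hp.out.pos σ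

/-- **P3 from the five remaining leaves** SPAN, IRR, REG, CYC, DETORD. -/
theorem twElement_of_leaves (hspan : SpanDeltaStatement) (hirr : Ad0IrreducibleStatement)
    (hreg : SpanDeltaStatement → ExistsRegularStatement) (hcyc : CycloQuotientStatement)
    (hord : DetOrderStatement) : Fermat.Agent.S56.TWElementStatement :=
  twElement_of_pieces (sel (h1_of_span hspan) hirr (hreg hspan)) (hreg hspan) hcyc
    cycExpExists hord

end Fermat.Agent.S56.P3.H306
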