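import Mathlib

/-!
# S56 / P3 : piece IRR, matrix identities (helper306)

`sl₂ ≅ so₃`: for trace-zero `2 × 2` matrices, commutator = cross product, `tr(XY)` = dot product.
-/

set_option autoImplicit false

namespace Fermat.Agent.S56.P3.H306

variable {k : Type} [Field k]

local notation "M₂" => Matrix (Fin 2) (Fin 2) k

/-- Cayley–Hamilton for trace-zero `2 × 2` matrices. -/
theorem m2_sq_of_trace_zero (A : M₂) (hA : A.trace = 0) : A * A = (-A.det) • (1 : M₂) := by
  have e : A 1 1 = - A 0 0 := by
    rw [Matrix.trace_fin_two] at hA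
    linear_combination hA
  ext i j
  fin_cases i <;> fin_cases j <;>
    simp [Matrix.mul_apply, Fin.sum_univ_two, Matrix.det_fin_two, e] <;> ring

/-- `A X A = 0` for all `X` forces `A = 0`. -/
theorem m2_eq_zero_of_mul_mul (A : M₂) (h : ∀ X : M₂, A * X * A = 0) : A = 0 := by
  ext i j
  have h1 := congrFun (congrFun (h (Matrix.single j i (1 : k))) i) j
  simp only [Matrix.mul_apply, Matrix.single_apply, Matrix.zero_apply] at h1
  simp only [Finset.sum_ite_eq, Finset.mem_univ, if_true, mul_ite, mul_one, mul_zero,
    ite_and] at h1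
  simpa using h1

/-- a trace-zero matrix commuting with everything is zero (`2 ≠ 0`). -/
theorem m2_eq_zero_of_commute_all (h2 : (2 : k) ≠ 0) (A : M₂) (hA : A.trace = 0)
    (h : ∀ X : M₂, X * A = A * X) : A = 0 := by
  have e : A 1 1 = - A 0 0 := by
    rw [Matrix.trace_fin_two] at hA
    linear_combination hA
  have h12 := h (Matrix.single 0 1 (1 : k))
  have h21 := h (Matrix.single 1 0 (1 : k))
  have a := congrFun (congrFun h12 0) 0
  have b := congrFun (congrFun h12 0) 1
  have c := congrFun (congrFun h21 1) 1
  simp [Matrix.mul_apply, Fin.sum_univ_two, Matrix.single_apply, e] at a b c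
  have ha : A 0 0 = 0 := by
    have : (2 : k) * A 0 0 = 0 := by linear_combination -b
    rcases mul_eq_zero.mp this with h | h
    · exact absurd h h2
    · exact h
  ext i j
  fin_cases i <;> fin_cases j <;> simp [e, ha, a, c]

/-- (parallel lemma) trace-zero `X` commuting with a non-zero trace-zero `C` is a multiple of
`C`. -/
theorem m2_parallel (h2 : (2 : k) ≠ 0) (X C : M₂) (hX : X.trace = 0) (hC : C.trace = 0)
    (hC0 : C ≠ 0) (h : X * C = C * X) : ∃ c : k, X = c • C := by
  have eX : X 1 1 = - X 0 0 := by
    rw [Matrix.trace_fin_two] at hX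
    linear_combination hX
  have eC : C 1 1 = - C 0 0 := by
    rw [Matrix.trace_fin_two] at hC
    linear_combination hC
  have a := congrFun (congrFun h 0) 0
  have b := congrFun (congrFun h 0) 1
  have c := congrFun (congrFun h 1) 0
  simp only [Matrix.mul_apply, Fin.sum_univ_two, eX, eC] at a b c
  have b' : X 0 0 * C 0 1 = C 0 0 * X 0 1 := by
    have : (2 : k) * (X 0 0 * C 0 1 - C 0 0 * X 0 1) = 0 := by linear_combination b
    rcases mul_eq_zero.mp this with h | h
    · exact absurd h h2
    · exact sub_eq_zero.mp h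
  have c' : X 1 0 * C 0 0 = C 1 0 * X 0 0 := by
    have : (2 : k) * (X 1 0 * C 0 0 - C 1 0 * X 0 0) = 0 := by linear_combination c
    rcases mul_eq_zero.mp this with h | h
    · exact absurd h h2
    · exact sub_eq_zero.mp h
  have a' : X 0 1 * C 1 0 = C 0 1 * X 1 0 := by linear_combination a
  by_cases h00 : C 0 0 = 0
  · by_cases h01 : C 0 1 = 0
    · have h10 : C 1 0 ≠ 0 := by
        intro h10
        apply hC0
        ext i j
        fin_cases i <;> fin_cases j <;> simp [h00, h01, h10, eC]
      refine ⟨X 1 0 / C 1 0, ?_⟩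
      ext i j
      fin_cases i <;> fin_cases j <;> simp [eX, eC] <;> field_simp <;>
        first
        | linear_combination a' | linear_combination -a' | linear_combination b'
        | linear_combination -b' | linear_combination c' | linear_combination -c'
    · refine ⟨X 0 1 / C 0 1, ?_⟩
      ext i j
      fin_cases i <;> fin_cases j <;> simp [eX, eC] <;> field_simp <;>
        first
        | linear_combination a' | linear_combination -a' | linear_combination b'
        | linear_combination -b' | linear_combination c' | linear_combination -c'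
  · refine ⟨X 0 0 / C 0 0, ?_⟩
    ext i j
    fin_cases i <;> fin_cases j <;> simp [eX, eC] <;> field_simp <;>
        first
        | linear_combination a' | linear_combination -a' | linear_combination b'
        | linear_combination -b' | linear_combination c' | linear_combination -c'

/-- trace of a commutator. -/
theorem m2_trace_comm (X Y : M₂) : (X * Y - Y * X).trace = 0 := by
  rw [Matrix.trace_sub, Matrix.trace_mul_comm, sub_self]

/-- `[X,[Y,Z]] = 2 tr(XY) Z - 2 tr(XZ) Y` on trace-zero matrices. -/
theorem m2_double_comm (X Y Z : M₂) (hX : X.trace = 0) (hY : Y.trace = 0) (hZ : Z.trace = 0) :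
    X * (Y * Z - Z * Y) - (Y * Z - Z * Y) * X =
      (2 * (X * Y).trace) • Z - (2 * (X * Z).trace) • Y := by
  have eX : X 1 1 = - X 0 0 := by
    rw [Matrix.trace_fin_two] at hX
    linear_combination hX
  have eY : Y 1 1 = - Y 0 0 := by
    rw [Matrix.trace_fin_two] at hY
    linear_combination hY
  have eZ : Z 1 1 = - Z 0 0 := by
    rw [Matrix.trace_fin_two] at hZ
    linear_combination hZ
  ext i j
  fin_cases i <;> fin_cases j <;>
    simp [Matrix.mul_apply, Fin.sum_univ_two, Matrix.trace_fin_two, eX, eY, eZ] <;> ring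

/-- cyclic symmetry of the triple product. -/
theorem m2_triple_cyc (X Y Z : M₂) :
    (X * (Y * Z - Z * Y)).trace = (Z * (X * Y - Y * X)).trace := by
  simp only [Matrix.trace_fin_two, Matrix.mul_apply, Fin.sum_univ_two, Matrix.sub_apply]
  ring

/-- Cramer's rule in `sl₂`. -/
theorem m2_cramer (X₁ X₂ X₃ Y : M₂) (h1 : X₁.trace = 0) (h2 : X₂.trace = 0)
    (h3 : X₃.trace = 0) (hY : Y.trace = 0) :
    (X₁ * (X₂ * X₃ - X₃ * X₂)).trace • Y =
      (Y * (X₂ * X₃ - X₃ * X₂)).trace • X₁ + (X₁ * (Y * X₃ - X₃ * Y)).trace • X₂ +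
        (X₁ * (X₂ * Y - Y * X₂)).trace • X₃ := by
  have e1 : X₁ 1 1 = - X₁ 0 0 := by
    rw [Matrix.trace_fin_two] at h1
    linear_combination h1
  have e2 : X₂ 1 1 = - X₂ 0 0 := by
    rw [Matrix.trace_fin_two] at h2
    linear_combination h2
  have e3 : X₃ 1 1 = - X₃ 0 0 := by
    rw [Matrix.trace_fin_two] at h3
    linear_combination h3
  have eY : Y 1 1 = - Y 0 0 := by
    rw [Matrix.trace_fin_two] at hY
    linear_combination hY
  ext i j
  fin_cases i <;> fin_cases j <;>
    simp [Matrix.mul_apply, Fin.sum_univ_two, Matrix.trace_fin_two, e1, e2, e3, eY] <;> ring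

end Fermat.Agent.S56.P3.H306
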