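import Fermat.Agent.S56.P3.Spec
import Fermat.Agent.S56.P3.H306.IrrMat

/-!
# S56 / P3 : piece IRR from SPAN (helper306)

`irr_of_span : SpanDeltaStatement → Ad0IrreducibleStatement`.

No base change: a stable line `k·A ⊂ ad⁰` gives a normal subgroup `G` of index `≤ 2` whose image
commutes with `A` (or `A X A = 0` on the image of `Γ` if `det A = 0`), contradicting SPAN for
`G` (resp. `⊤`).  A stable plane gives the stable line spanned by the commutator.
-/

set_option autoImplicit false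
set_option linter.unusedSectionVars false

namespace Fermat.Agent.S56.P3.H306

open Fermat.Agent.S56.P3

section Mat

variable {k : Type} [Field k] {Γ : Type} [Group Γ]

local notation "M₂" => Matrix (Fin 2) (Fin 2) k

variable (ρ : Γ →* Matrix (Fin 2) (Fin 2) k)

theorem mρ_mul_inv (g : Γ) : ρ g * ρ g⁻¹ = 1 := by
  rw [← map_mul, mul_inv_cancel, map_one]

theorem mρ_inv_mul (g : Γ) : ρ g⁻¹ * ρ g = 1 := by
  rw [← map_mul, inv_mul_cancel, map_one]

/-- conjugation by `ρ g`. -/
def mconj (g : Γ) (X : M₂) : M₂ := ρ g * X * ρ g⁻¹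

theorem mconj_one (X : M₂) : mconj ρ 1 X = X := by
  simp [mconj]

theorem mconj_mul (g h : Γ) (X : M₂) : mconj ρ (g * h) X = mconj ρ g (mconj ρ h X) := by
  simp only [mconj, map_mul, mul_inv_rev, mul_assoc]

theorem mconj_smul (g : Γ) (c : k) (X : M₂) : mconj ρ g (c • X) = c • mconj ρ g X := by
  simp only [mconj, Matrix.mul_smul, Matrix.smul_mul]

theorem mconj_neg (g : Γ) (X : M₂) : mconj ρ g (-X) = - mconj ρ g X := by
  simp only [mconj, Matrix.mul_neg, Matrix.neg_mul]

theorem mconj_mul_mul (g : Γ) (X Y : M₂) :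
    mconj ρ g (X * Y) = mconj ρ g X * mconj ρ g Y := by
  simp only [mconj]
  calc ρ g * (X * Y) * ρ g⁻¹ = ρ g * X * 1 * Y * ρ g⁻¹ := by simp [mul_assoc]
    _ = ρ g * X * (ρ g⁻¹ * ρ g) * Y * ρ g⁻¹ := by rw [mρ_inv_mul]
    _ = ρ g * X * ρ g⁻¹ * (ρ g * Y * ρ g⁻¹) := by simp only [mul_assoc]

theorem mconj_comm (g : Γ) (X Y : M₂) :
    mconj ρ g (X * Y - Y * X) = mconj ρ g X * mconj ρ g Y - mconj ρ g Y * mconj ρ g X := by
  rw [← mconj_mul_mul, ← mconj_mul_mul]
  simp only [mconj, mul_sub, sub_mul]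

theorem mconj_trace (g : Γ) (X : M₂) : (mconj ρ g X).trace = X.trace := by
  rw [mconj, Matrix.trace_mul_comm, ← mul_assoc, mρ_inv_mul, one_mul]

theorem mconj_det (g : Γ) (X : M₂) : (mconj ρ g X).det = X.det := by
  rw [mconj, Matrix.det_mul, Matrix.det_mul, mul_right_comm, ← Matrix.det_mul, mρ_mul_inv,
    Matrix.det_one, one_mul]

theorem mconj_inv_cancel (g : Γ) (X : M₂) : mconj ρ g (mconj ρ g⁻¹ X) = X := by
  rw [← mconj_mul, mul_inv_cancel, mconj_one]

theorem commute_of_mconj_eq {g : Γ} {A : M₂} (h : mconj ρ g A = A) : ρ g * A = A * ρ g := by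
  have h1 : ρ g * A * ρ g⁻¹ * ρ g = A * ρ g := by
    rw [show ρ g * A * ρ g⁻¹ = A from h]
  rwa [mul_assoc, mρ_inv_mul, mul_one] at h1

/-- the SPAN hypothesis in matrix form. -/
def MSpan : Prop :=
  ∀ (Δ : Subgroup Γ) [Δ.Normal], IsCyclic (Γ ⧸ Δ) →
    Submodule.span k (ρ '' (Δ : Set Γ)) = ⊤

variable {ρ}

theorem neg_ne_self (h2 : (2 : k) ≠ 0) {A : M₂} (hA : A ≠ 0) : A ≠ -A := by
  intro h
  apply hA
  have h1 : (2 : k) • A = 0 := by
    rw [two_smul]
    nth_rewrite 1 [h]
    exact neg_add_cancel A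
  rcases smul_eq_zero.mp h1 with h3 | h3
  · exact absurd h3 h2
  · exact h3

/-- the stabiliser of `A` when every conjugate of `A` is `± A`. -/
theorem exists_stabiliser (h2 : (2 : k) ≠ 0) {A : M₂} (hA : A ≠ 0)
    (hpm : ∀ g, mconj ρ g A = A ∨ mconj ρ g A = -A) :
    ∃ (G : Subgroup Γ) (_ : G.Normal), IsCyclic (Γ ⧸ G) ∧ ∀ g ∈ G, mconj ρ g A = A := by
  have hne := neg_ne_self h2 hA
  let G : Subgroup Γ :=
    { carrier := {g | mconj ρ g A = A}
      mul_mem' := by
        intro a b ha hb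
        show mconj ρ (a * b) A = A
        rw [mconj_mul, show mconj ρ b A = A from hb, show mconj ρ a A = A from ha]
      one_mem' := mconj_one ρ A
      inv_mem' := by
        intro a ha
        show mconj ρ a⁻¹ A = A
        have h := mconj_inv_cancel ρ a⁻¹ A
        rw [inv_inv, show mconj ρ a A = A from ha] at h
        exact h }
  have hGmem : ∀ g, g ∈ G ↔ mconj ρ g A = A := fun g => Iff.rfl
  have hnormal : G.Normal := by
    refine ⟨fun n hn g => ?_⟩
    rw [hGmem] at hn ⊢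
    rw [mconj_mul, mconj_mul]
    have hc := mconj_inv_cancel ρ g A
    rcases hpm g⁻¹ with h | h
    · rw [h, hn]
      rw [h] at hc
      exact hc
    · rw [h, mconj_neg, hn, mconj_neg]
      rw [h, mconj_neg] at hc
      exact hc
  refine ⟨G, hnormal, ?_, fun g hg => (hGmem g).mp hg⟩
  by_cases hall : ∀ g, mconj ρ g A = A
  · have : G = ⊤ := by
      ext g
      simp only [Subgroup.mem_top, iff_true]
      exact (hGmem g).mpr (hall g)
    have hsub : Subsingleton (Γ ⧸ G) := by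
      rw [this]
      exact QuotientGroup.subsingleton_quotient_top
    exact isCyclic_of_subsingleton
  · push_neg at hall
    obtain ⟨a, ha⟩ := hall
    have ha' : mconj ρ a A = -A := (hpm a).resolve_left ha
    have hidx : G.index = 2 := by
      rw [Subgroup.index_eq_two_iff]
      refine ⟨a, fun b => ?_⟩
      have hba : mconj ρ (b * a) A = - mconj ρ b A := by
        rw [mconj_mul, ha', mconj_neg]
      rcases hpm b with hb | hb
      · right
        refine ⟨(hGmem b).mpr hb, ?_⟩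
        rw [hGmem, hba, hb]
        exact fun h => hne h.symm
      · left
        refine ⟨?_, ?_⟩
        · rw [hGmem, hba, hb, neg_neg]
        · rw [hGmem, hb]
          exact fun h => hne h.symm
    have hcard : Nat.card (Γ ⧸ G) = 2 := hidx
    have : Fact (Nat.Prime 2) := ⟨Nat.prime_two⟩
    exact isCyclic_of_prime_card hcard

/-- **no stable line** in `ad⁰`. -/
theorem no_stable_line (h2 : (2 : k) ≠ 0) (hspan : MSpan ρ) {A : M₂} (hA : A ≠ 0)
    (hAtr : A.trace = 0) (hst : ∀ g, ∃ c : k, mconj ρ g A = c • A) : False := by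
  have hA2 := m2_sq_of_trace_zero A hAtr
  by_cases hd : A.det = 0
  · -- nilpotent case
    rw [hd, neg_zero, zero_smul] at hA2
    have hg : ∀ g, A * ρ g * A = 0 := by
      intro g
      obtain ⟨c, hc⟩ := hst g
      have h1 : ρ g * A = c • (A * ρ g) := by
        have h3 : ρ g * A * ρ g⁻¹ * ρ g = c • A * ρ g := by
          rw [show ρ g * A * ρ g⁻¹ = c • A from hc]
        rwa [mul_assoc, mρ_inv_mul, mul_one, Matrix.smul_mul] at h3
      rw [mul_assoc, h1, Matrix.mul_smul, ← mul_assoc, hA2, zero_mul, smul_zero]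
    have htop : Subsingleton (Γ ⧸ (⊤ : Subgroup Γ)) := QuotientGroup.subsingleton_quotient_top
    have hs := hspan ⊤ isCyclic_of_subsingleton
    have hall : ∀ X : M₂, A * X * A = 0 := by
      intro X
      have hX : X ∈ Submodule.span k (ρ '' ((⊤ : Subgroup Γ) : Set Γ)) := by
        rw [hs]
        exact Submodule.mem_top
      induction hX using Submodule.span_induction with
      | mem x hx =>
        obtain ⟨g, -, rfl⟩ := hx
        exact hg g
      | zero => simp
      | add x y _ _ hx hy => rw [mul_add, add_mul, hx, hy, add_zero]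
      | smul c x _ hx => rw [Matrix.mul_smul, Matrix.smul_mul, hx, smul_zero]
    exact hA (m2_eq_zero_of_mul_mul A hall)
  · -- `det A ≠ 0` : every conjugate is `± A`
    have hpm : ∀ g, mconj ρ g A = A ∨ mconj ρ g A = -A := by
      intro g
      obtain ⟨c, hc⟩ := hst g
      have hdet := mconj_det ρ g A
      rw [hc, Matrix.det_smul, Fintype.card_fin] at hdet
      have hc2 : c ^ 2 = 1 := by
        have : c ^ 2 * A.det = 1 * A.det := by rw [hdet, one_mul]
        exact mul_right_cancel₀ hd this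
      have hfac : (c - 1) * (c + 1) = 0 := by linear_combination hc2
      rcases mul_eq_zero.mp hfac with h | h
      · left
        rw [hc, sub_eq_zero.mp h, one_smul]
      · right
        rw [hc, eq_neg_of_add_eq_zero_left h, neg_one_smul]
    obtain ⟨G, hGn, hGc, hG⟩ := exists_stabiliser h2 hA hpm
    have hs := hspan G hGc
    have hall : ∀ X : M₂, X * A = A * X := by
      intro X
      have hX : X ∈ Submodule.span k (ρ '' (G : Set Γ)) := by
        rw [hs]
        exact Submodule.mem_top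
      induction hX using Submodule.span_induction with
      | mem x hx =>
        obtain ⟨g, hg, rfl⟩ := hx
        exact commute_of_mconj_eq ρ (hG g hg)
      | zero => simp
      | add x y _ _ hx hy => rw [mul_add, add_mul, hx, hy]
      | smul c x _ hx => rw [Matrix.mul_smul, Matrix.smul_mul, hx]
    exact hA (m2_eq_zero_of_commute_all h2 A hAtr hall)

/-- **(IRR), matrix form.** -/
theorem irr_matrix (h2 : (2 : k) ≠ 0) (hspan : MSpan ρ) (W : Submodule k M₂)
    (hWtr : ∀ A ∈ W, A.trace = 0) (hWconj : ∀ g, ∀ A ∈ W, mconj ρ g A ∈ W) (hW : W ≠ ⊥) :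
    ∀ Y : M₂, Y.trace = 0 → Y ∈ W := by
  obtain ⟨A₁, hA₁W, hA₁⟩ := (Submodule.ne_bot_iff W).mp hW
  have hA₁tr := hWtr A₁ hA₁W
  -- Step a : a conjugate `A₂` of `A₁` which is not parallel to `A₁`
  have hex : ∃ g, ∀ c : k, mconj ρ g A₁ ≠ c • A₁ := by
    by_contra hcon
    push_neg at hcon
    exact no_stable_line h2 hspan hA₁ hA₁tr hcon
  obtain ⟨g₀, hg₀⟩ := hex
  set A₂ : M₂ := mconj ρ g₀ A₁ with hA₂
  have hA₂W : A₂ ∈ W := hWconj g₀ A₁ hA₁W
  have hA₂tr := hWtr A₂ hA₂W
  set C : M₂ := A₁ * A₂ - A₂ * A₁ with hC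
  have hCtr : C.trace = 0 := m2_trace_comm A₁ A₂
  have hC0 : C ≠ 0 := by
    intro h
    have hcomm : A₂ * A₁ = A₁ * A₂ := (sub_eq_zero.mp h).symm
    obtain ⟨c, hc⟩ := m2_parallel h2 A₂ A₁ hA₂tr hA₁tr hA₁ hcomm
    exact hg₀ c hc
  -- Step b : some `X₃ ∈ W` with `tr (X₃ C) ≠ 0`
  have hex3 : ∃ X₃ ∈ W, (X₃ * C).trace ≠ 0 := by
    by_contra hcon
    push_neg at hcon
    refine no_stable_line h2 hspan hC0 hCtr (fun g => ?_)
    have hY₁ : mconj ρ g A₁ ∈ W := hWconj g A₁ hA₁W
    have hY₂ : mconj ρ g A₂ ∈ W := hWconj g A₂ hA₂W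
    have e : mconj ρ g C = mconj ρ g A₁ * mconj ρ g A₂ - mconj ρ g A₂ * mconj ρ g A₁ :=
      mconj_comm ρ g A₁ A₂
    have t1 : (C * mconj ρ g A₁).trace = 0 := by
      rw [Matrix.trace_mul_comm]
      exact hcon _ hY₁
    have t2 : (C * mconj ρ g A₂).trace = 0 := by
      rw [Matrix.trace_mul_comm]
      exact hcon _ hY₂
    have hd := m2_double_comm C (mconj ρ g A₁) (mconj ρ g A₂) hCtr (hWtr _ hY₁) (hWtr _ hY₂)
    rw [t1, t2, mul_zero, zero_smul, zero_smul, sub_zero, ← e] at hd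
    have hcomm : mconj ρ g C * C = C * mconj ρ g C := (sub_eq_zero.mp hd).symm
    have htr : (mconj ρ g C).trace = 0 := by rw [mconj_trace, hCtr]
    exact m2_parallel h2 (mconj ρ g C) C htr hCtr hC0 hcomm
  obtain ⟨X₃, hX₃W, hX₃⟩ := hex3
  have hX₃tr := hWtr X₃ hX₃W
  -- Step c : Cramer
  intro Y hY
  have hD : (A₁ * (A₂ * X₃ - X₃ * A₂)).trace ≠ 0 := by
    rw [m2_triple_cyc]
    exact hX₃
  have hcr := m2_cramer A₁ A₂ X₃ Y hA₁tr hA₂tr hX₃tr hY
  have hmem : (A₁ * (A₂ * X₃ - X₃ * A₂)).trace • Y ∈ W := by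
    rw [hcr]
    exact W.add_mem (W.add_mem (W.smul_mem _ hA₁W) (W.smul_mem _ hA₂W)) (W.smul_mem _ hX₃W)
  exact (W.smul_mem_iff hD).mp hmem

end Mat

/-- **(IRR) from SPAN.** -/
theorem irr_of_span (hs : SpanDeltaStatement) : Ad0IrreducibleStatement := by
  intro k _ V _ _ _ Γ _ ρ p _ hp2 hT W hWtr hWconj hW
  classical
  have hp : p.Prime := Fact.out
  have h2 : (2 : k) ≠ 0 := by
    intro h2
    have h2' : ((2 : ℕ) : k) = 0 := by exact_mod_cast h2
    have : CharP k p := (CharP.charP_iff_prime_eq_zero hp).mpr hT.char_p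
    have hdvd := (CharP.cast_eq_zero_iff k p 2).mp h2'
    exact hp2 ((Nat.prime_dvd_prime_iff_eq hp Nat.prime_two).mp hdvd)
  set b : Module.Basis (Fin 2) k V := Module.finBasisOfFinrankEq k V hT.finrank_eq with hb
  set E : Module.End k V ≃ₐ[k] Matrix (Fin 2) (Fin 2) k := LinearMap.toMatrixAlgEquiv b with hE
  have hEtr : ∀ A : Module.End k V, (E A).trace = LinearMap.trace k V A := fun A =>
    (LinearMap.trace_eq_matrix_trace k b A).symm
  set ρ' : Γ →* Matrix (Fin 2) (Fin 2) k := (E : Module.End k V →* _).comp ρ with hρ'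
  have hρ'app : ∀ g, ρ' g = E (ρ g) := fun g => rfl
  have hspan' : MSpan ρ' := by
    intro Δ hΔ hC
    have h0 := hs k V Γ ρ p hp2 hT Δ hC
    have h1 : ρ' '' (Δ : Set Γ) =
        (E.toLinearEquiv : Module.End k V →ₗ[k] Matrix (Fin 2) (Fin 2) k) ''
          (Set.range fun δ : Δ => ρ (δ : Γ)) := by
      ext x
      constructor
      · rintro ⟨g, hg, rfl⟩
        exact ⟨ρ g, ⟨⟨g, hg⟩, rfl⟩, rfl⟩
      · rintro ⟨_, ⟨⟨g, hg⟩, rfl⟩, rfl⟩
        exact ⟨g, hg, rfl⟩
    rw [h1, Submodule.span_image, h0, Submodule.map_top, LinearMap.range_eq_top]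
    exact E.toLinearEquiv.surjective
  set W' : Submodule k (Matrix (Fin 2) (Fin 2) k) :=
    W.map (E.toLinearEquiv : Module.End k V →ₗ[k] Matrix (Fin 2) (Fin 2) k) with hW'
  have hmemW' : ∀ A : Module.End k V, E A ∈ W' ↔ A ∈ W := by
    intro A
    constructor
    · rintro ⟨B, hB, hBA⟩
      have : B = A := E.injective hBA
      exact this ▸ hB
    · intro hA
      exact ⟨A, hA, rfl⟩
  have hW'tr : ∀ A ∈ W', A.trace = 0 := by
    rintro _ ⟨B, hB, rfl⟩
    exact (hEtr B).trans (hWtr B hB)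
  have hW'conj : ∀ g, ∀ A ∈ W', mconj ρ' g A ∈ W' := by
    rintro g _ ⟨B, hB, rfl⟩
    have e : mconj ρ' g (E B) = E (ρ g * B * ρ g⁻¹) := by
      simp only [mconj, hρ'app, map_mul]
    have h3 := (hmemW' (ρ g * B * ρ g⁻¹)).mpr (hWconj g B hB)
    rw [← e] at h3
    exact h3
  have hW'ne : W' ≠ ⊥ := by
    intro h
    apply hW
    rw [Submodule.eq_bot_iff]
    intro A hA
    have h1 : E A ∈ W' := (hmemW' A).mpr hA
    rw [h, Submodule.mem_bot] at h1
    exact E.injective (by rw [h1, map_zero])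
  intro A hA
  rw [← hmemW']
  exact irr_matrix h2 hspan' W' hW'tr hW'conj hW'ne (E A) ((hEtr A).trans hA)

end Fermat.Agent.S56.P3.H306
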